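/-
S26 / block LOC, leaf L5 (helper211), CORE: a connected smooth scheme over a field `K` is integral,
provided the local rings of standard smooth `K`-algebras at maximal ideals are domains
(`DomainAtMax K`, a consequence of leaf L3).
-/
import Fermat.Agent.S26.Nodes

set_option autoImplicit false

universe u

open CategoryTheory CategoryTheory.Limits AlgebraicGeometry

namespace Fermat.Agent.S26.Loc

/-! ### Topology -/

/-- A connected space in which every point has a preirreducible open neighbourhood is
irreducible. -/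
theorem Integral.irreducibleSpace_of_locally {X : Type*} [TopologicalSpace X] [ConnectedSpace X]
    (h : ∀ x : X, ∃ U : Set X, IsOpen U ∧ x ∈ U ∧ IsPreirreducible U) : IrreducibleSpace X := by
  obtain ⟨x₀⟩ := (inferInstance : Nonempty X)
  obtain ⟨U₀, hU₀, hx₀, hirr₀⟩ := h x₀
  have hopen : IsOpen (closure U₀) := by
    rw [isOpen_iff_forall_mem_open]
    intro z hz
    obtain ⟨W, hW, hzW, hirrW⟩ := h z
    refine ⟨W, ?_, hW, hzW⟩
    intro w hw
    rw [mem_closure_iff]
    intro O hO hwO
    have h1 : (W ∩ U₀).Nonempty := (mem_closure_iff.1 hz) W hW hzW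
    obtain ⟨y, hyW, hyO, hyU⟩ := hirrW O U₀ hO hU₀ ⟨w, hw, hwO⟩ h1
    exact ⟨y, hyO, hyU⟩
  have hclopen : IsClopen (closure U₀) := ⟨isClosed_closure, hopen⟩
  have huniv : closure U₀ = Set.univ := hclopen.eq_univ ⟨x₀, subset_closure hx₀⟩
  have : IsPreirreducible (Set.univ : Set X) := huniv ▸ hirr₀.closure
  exact { isPreirreducible_univ := this, toNonempty := ⟨x₀⟩ }

/-! ### Commutative algebra -/

/-- If `B_m` is a domain and `p ≤ m` then `B_p` is a domain. -/
theorem Integral.isDomain_atPrime_of_le {B : Type*} [CommRing B] (p m : Ideal B) [p.IsPrime]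
    [m.IsPrime] (hpm : p ≤ m) [IsDomain (Localization.AtPrime m)] :
    IsDomain (Localization.AtPrime p) := by
  have key : ∀ a : B, algebraMap B (Localization.AtPrime m) a = 0 →
      algebraMap B (Localization.AtPrime p) a = 0 := by
    intro a ha
    rw [IsLocalization.map_eq_zero_iff m.primeCompl] at ha
    obtain ⟨v, hv⟩ := ha
    rw [IsLocalization.map_eq_zero_iff p.primeCompl]
    exact ⟨⟨v, fun h => v.2 (hpm h)⟩, hv⟩
  have hunit : ∀ u : p.primeCompl, algebraMap B (Localization.AtPrime m) u ≠ 0 := by
    intro u hu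
    rw [IsLocalization.map_eq_zero_iff m.primeCompl] at hu
    obtain ⟨v, hv⟩ := hu
    have h0 : (v : B) * u ∈ p := by rw [hv]; exact p.zero_mem
    rcases (Ideal.IsPrime.mem_or_mem inferInstance h0) with h | h
    · exact v.2 (hpm h)
    · exact u.2 h
  have : NoZeroDivisors (Localization.AtPrime p) := by
    constructor
    intro x y hxy
    obtain ⟨a, s, rfl⟩ := IsLocalization.exists_mk'_eq p.primeCompl x
    obtain ⟨b, t, rfl⟩ := IsLocalization.exists_mk'_eq p.primeCompl y
    rw [← IsLocalization.mk'_mul, IsLocalization.mk'_eq_zero_iff] at hxy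
    obtain ⟨u, hu⟩ := hxy
    have h1 : algebraMap B (Localization.AtPrime m) u *
        (algebraMap B (Localization.AtPrime m) a * algebraMap B (Localization.AtPrime m) b) = 0 := by
      rw [← map_mul, ← map_mul, hu, map_zero]
    rcases mul_eq_zero.1 h1 with h | h
    · exact absurd h (hunit u)
    rcases mul_eq_zero.1 h with h | h
    · left
      rw [IsLocalization.mk'_eq_zero_iff]
      have := key a h
      rwa [IsLocalization.map_eq_zero_iff p.primeCompl] at this
    · right
      rw [IsLocalization.mk'_eq_zero_iff]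
      have := key b h
      rwa [IsLocalization.map_eq_zero_iff p.primeCompl] at this
  exact { }

/-- In a noetherian ring, a prime `p` such that `B_p` is a domain has a preirreducible basic open
neighbourhood. -/
theorem Integral.exists_basicOpen_preirreducible (B : Type*) [CommRing B] [IsNoetherianRing B]
    (p : Ideal B) [p.IsPrime] [IsDomain (Localization.AtPrime p)] :
    ∃ f : B, f ∉ p ∧ IsPreirreducible (PrimeSpectrum.basicOpen f : Set (PrimeSpectrum B)) := by
  classical
  set k : Ideal B := RingHom.ker (algebraMap B (Localization.AtPrime p)) with hk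
  have hkp : k.IsPrime := RingHom.ker_isPrime _
  obtain ⟨S, hS⟩ : k.FG := IsNoetherian.noetherian k
  have hs : ∀ x ∈ S, ∃ s : B, s ∉ p ∧ s * x = 0 := by
    intro x hx
    have hxk : x ∈ k := hS ▸ Submodule.subset_span hx
    rw [hk, RingHom.mem_ker, IsLocalization.map_eq_zero_iff p.primeCompl] at hxk
    obtain ⟨s, hs⟩ := hxk
    exact ⟨s, s.2, hs⟩
  choose! s hsp hs0 using hs
  have hf : ∀ x ∈ k, (∏ y ∈ S, s y) * x = 0 := by
    intro x hx
    rw [← hS] at hx
    induction hx using Submodule.span_induction with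
    | mem x hx =>
      rw [← Finset.mul_prod_erase S s hx, mul_right_comm, hs0 x hx, zero_mul]
    | zero => rw [mul_zero]
    | add x y _ _ hx hy => rw [mul_add, hx, hy, add_zero]
    | smul a x _ hx => rw [smul_eq_mul, mul_left_comm, hx, mul_zero]
  refine ⟨∏ y ∈ S, s y, ?_, ?_⟩
  · intro hmem
    obtain ⟨x, hx, hxp⟩ := Ideal.IsPrime.prod_mem_iff.1 hmem
    exact hsp x hx hxp
  · have hirr : IsIrreducible (PrimeSpectrum.zeroLocus (k : Set B)) :=
      (PrimeSpectrum.isIrreducible_zeroLocus_iff_of_radical k hkp.isRadical).2 hkp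
    refine hirr.isPreirreducible.open_subset (PrimeSpectrum.basicOpen _).isOpen ?_
    intro r hr x hx
    have h0 : (∏ y ∈ S, s y) * x ∈ r.asIdeal := by rw [hf x hx]; exact r.asIdeal.zero_mem
    rcases r.isPrime.mem_or_mem h0 with h | h
    · exact absurd h hr
    · exact h

/-! ### Schemes -/

/-- The consequence of leaf L3 which is used here. -/
def DomainAtMax (K : Type u) [Field K] : Prop :=
  ∀ (g : ℕ) (B : Type u) [CommRing B] [Algebra K B]
    [Algebra.IsStandardSmoothOfRelativeDimension g K B] (m : Ideal B) [m.IsMaximal],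
    IsDomain (Localization.AtPrime m)

/-- standard smooth charts of a smooth `K`-scheme -/
theorem Integral.exists_chart {K : Type u} [Field K] {X : Scheme.{u}} (x : X ⟶ SK K) [Smooth x]
    (z : X) : ∃ (V : X.Opens) (_ : IsAffineOpen V) (_ : z ∈ V) (φ : K →+* Γ(X, V)),
      φ.IsStandardSmooth := by
  obtain ⟨U, hU, V, hV, hz, e, hf⟩ := Smooth.exists_isStandardSmooth x z
  have hUtop : U = ⊤ := by
    ext y
    simp only [TopologicalSpace.Opens.coe_top, Set.mem_univ, iff_true]
    have : y = x z := Subsingleton.elim _ _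
    rw [this]
    exact e hz
  subst hUtop
  refine ⟨V, hV, hz, (x.appLE ⊤ V e).hom.comp
    (Scheme.ΓSpecIso (CommRingCat.of K)).symm.commRingCatIsoToRingEquiv.toRingHom, ?_⟩
  exact RingHom.isStandardSmooth_respectsIso.2 _ _ hf

/-- all local rings of a standard smooth algebra are domains -/
theorem Integral.isDomain_atPrime {K : Type u} [Field K] (h : DomainAtMax K) (B : Type u)
    [CommRing B] [Algebra K B] [Algebra.IsStandardSmooth K B] (p : Ideal B) [hp : p.IsPrime] :
    IsDomain (Localization.AtPrime p) := by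
  obtain ⟨ι, σ, _, _, ⟨P⟩⟩ := (inferInstance : Algebra.IsStandardSmooth K B).out
  have : Algebra.IsStandardSmoothOfRelativeDimension P.dimension K B :=
    P.isStandardSmoothOfRelativeDimension rfl
  obtain ⟨m, hm, hpm⟩ := Ideal.exists_le_maximal p hp.ne_top
  have := h P.dimension B m
  exact Integral.isDomain_atPrime_of_le p m hpm

/-- **L5, core.** -/
theorem Integral.isIntegral_of {K : Type u} [Field K] (h : DomainAtMax K) {X : Scheme.{u}}
    (x : X ⟶ SK K) [Smooth x] [ConnectedSpace X] : IsIntegral X := by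
  have hloc : ∀ z : X, ∃ (V : X.Opens) (hV : IsAffineOpen V) (hz : z ∈ V),
      IsNoetherianRing Γ(X, V) ∧
        IsDomain (Localization.AtPrime (hV.primeIdealOf ⟨z, hz⟩).asIdeal) := by
    intro z
    obtain ⟨V, hV, hz, φ, hφ⟩ := Integral.exists_chart x z
    letI : Algebra K Γ(X, V) := φ.toAlgebra
    have h1 : Algebra.IsStandardSmooth K Γ(X, V) := hφ
    exact ⟨V, hV, hz, Algebra.FiniteType.isNoetherianRing K _,
      Integral.isDomain_atPrime h Γ(X, V) _⟩
  have hirr : IrreducibleSpace X := by
    apply Integral.irreducibleSpace_of_locally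
    intro z
    obtain ⟨V, hV, hz, hN, hD⟩ := hloc z
    obtain ⟨f, hf, hpre⟩ := Integral.exists_basicOpen_preirreducible Γ(X, V)
      (hV.primeIdealOf ⟨z, hz⟩).asIdeal
    refine ⟨hV.fromSpec '' (PrimeSpectrum.basicOpen f : Set (PrimeSpectrum Γ(X, V))), ?_, ?_, ?_⟩
    · exact hV.fromSpec.isOpenEmbedding.isOpenMap _ (PrimeSpectrum.basicOpen f).isOpen
    · exact ⟨hV.primeIdealOf ⟨z, hz⟩, hf, hV.fromSpec_primeIdealOf ⟨z, hz⟩⟩
    · exact hpre.image _ hV.fromSpec.continuous.continuousOn
  have hred : IsReduced X := by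
    apply +allowSynthFailures isReduced_of_isReduced_stalk
    intro z
    obtain ⟨V, hV, hz, hN, hD⟩ := hloc z
    letI := X.presheaf.algebra_section_stalk ⟨z, hz⟩
    have hl := hV.isLocalization_stalk ⟨z, hz⟩
    have e := IsLocalization.algEquiv (hV.primeIdealOf ⟨z, hz⟩).asIdeal.primeCompl
      (X.presheaf.stalk z) (Localization.AtPrime (hV.primeIdealOf ⟨z, hz⟩).asIdeal)
    exact isReduced_of_injective e.toRingHom e.injective
  exact isIntegral_of_irreducibleSpace_of_isReduced X

/-- Node INT from L3. -/
theorem Integral.intNode_of {K : Type u} [Field K] (h : DomainAtMax K) : IntNode K := by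
  intro A f hf
  have := hf.smooth
  have hc := hf.connectedFibres default
  have huniv : f.base ⁻¹' {default} = Set.univ := by
    ext a
    simp only [Set.mem_preimage, Set.mem_singleton_iff, Set.mem_univ, iff_true]
    exact Subsingleton.elim _ _
  rw [huniv] at hc
  have : ConnectedSpace A := connectedSpace_iff_univ.2 hc
  exact Integral.isIntegral_of h f

end Fermat.Agent.S26.Loc
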