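/-
S26 / block LOC, leaf L1 (architect helper86; proved by helper198, task 3278).  Mathlib only.
`g` elements of `m` generate the maximal ideal of `B_m`, for `B` standard smooth of relative
dimension `g` over a field `K` and `m` a `K`-rational maximal ideal.
-/
import Mathlib

set_option autoImplicit false

namespace Fermat.Agent.S26.Loc

open TensorProduct KaehlerDifferential

/-- The cotangent space at a rational point is generated by `g` elements. -/
theorem exists_generators_aux (K : Type*) [Field K] (g : ℕ) (B : Type*) [CommRing B] [Algebra K B]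
    [Algebra.IsStandardSmoothOfRelativeDimension g K B] (κ : Type*) [Field κ] [Algebra B κ]
    [Algebra K κ] [IsScalarTower K B κ]
    (hsurj : Function.Surjective (algebraMap B κ)) (hres : Function.Surjective (algebraMap K κ)) :
    ∃ t : Fin g → B, (∀ i, t i ∈ RingHom.ker (algebraMap B κ)) ∧
      RingHom.ker (algebraMap B κ) ≤
        Ideal.span (Set.range t) ⊔ (RingHom.ker (algebraMap B κ)) ^ 2 := by
  have hss : Algebra.IsStandardSmooth K B :=
    Algebra.IsStandardSmoothOfRelativeDimension.isStandardSmooth g
  have : Nontrivial B := (algebraMap B κ).domain_nontrivial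
  have hfs : Algebra.FormallySmooth K κ :=
    Algebra.FormallySmooth.of_equiv
      (AlgEquiv.ofBijective (Algebra.ofId K κ) ⟨(algebraMap K κ).injective, hres⟩)
  obtain ⟨l, hl⟩ :=
    (Algebra.FormallySmooth.iff_split_injection (R := K) (P := B) (A := κ) hsurj).1 hfs
  have hrank := Algebra.IsStandardSmoothOfRelativeDimension.rank_kaehlerDifferential
    (R := K) (S := B) g
  have hfin : Module.finrank B Ω[B⁄K] = g := Module.finrank_eq_of_rank_eq hrank
  let b : Module.Basis (Fin g) B Ω[B⁄K] := Module.finBasisOfFinrankEq B _ hfin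
  choose t ht using fun i => Ideal.toCotangent_surjective (RingHom.ker (algebraMap B κ)) (l (1 ⊗ₜ b i))
  refine ⟨fun i => (t i : B), fun i => (t i).2, fun x hx => ?_⟩
  have h1 : (RingHom.ker (algebraMap B κ)).toCotangent ⟨x, hx⟩ = l (1 ⊗ₜ D K B x) := by
    have := LinearMap.congr_fun hl ((RingHom.ker (algebraMap B κ)).toCotangent ⟨x, hx⟩)
    rw [LinearMap.comp_apply, kerCotangentToTensor_toCotangent] at this
    exact this.symm
  have h2 : D K B x = ∑ i, b.repr (D K B x) i • b i := (b.sum_repr _).symm
  have h3 : (RingHom.ker (algebraMap B κ)).toCotangent ⟨x, hx⟩ = (RingHom.ker (algebraMap B κ)).toCotangent (∑ i, b.repr (D K B x) i • t i) := by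
    rw [h1, map_sum]
    conv_lhs => rw [h2]
    rw [tmul_sum, map_sum]
    refine Finset.sum_congr rfl fun i _ => ?_
    rw [tmul_smul, map_smul, map_smul, ht]
  rw [Ideal.toCotangent_eq] at h3
  have h4 : x = (∑ i, b.repr (D K B x) i * (t i : B)) +
      (x - ∑ i, b.repr (D K B x) i * (t i : B)) := by ring
  rw [h4]
  refine Submodule.add_mem_sup ?_ ?_
  · refine Ideal.sum_mem _ fun i _ => Ideal.mul_mem_left _ _ (Ideal.subset_span ⟨i, rfl⟩)
  · convert h3 using 2
    simp

/-- L1: `g` elements of `m` generate the maximal ideal of `B_m`. -/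
theorem exists_generators (K : Type*) [Field K] (g : ℕ) (B : Type*) [CommRing B] [Algebra K B]
    [Algebra.IsStandardSmoothOfRelativeDimension g K B] (m : Ideal B) [m.IsMaximal]
    (hres : Function.Surjective (algebraMap K (B ⧸ m))) :
    ∃ t : Fin g → B, (∀ i, t i ∈ m) ∧
      Ideal.span (Set.range fun i => algebraMap B (Localization.AtPrime m) (t i)) =
        IsLocalRing.maximalIdeal (Localization.AtPrime m) := by
  have hss : Algebra.IsStandardSmooth K B :=
    Algebra.IsStandardSmoothOfRelativeDimension.isStandardSmooth g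
  let _ : Field (B ⧸ m) := Ideal.Quotient.field m
  obtain ⟨t, ht, hle⟩ := exists_generators_aux K g B (B ⧸ m) Ideal.Quotient.mk_surjective hres
  have hker : RingHom.ker (algebraMap B (B ⧸ m)) = m := Ideal.mk_ker
  rw [hker] at hle
  simp only [hker] at ht
  refine ⟨t, ht, ?_⟩
  have hnoeth : IsNoetherianRing B := Algebra.FiniteType.isNoetherianRing K B
  have hnoeth' : IsNoetherianRing (Localization.AtPrime m) :=
    IsLocalization.isNoetherianRing m.primeCompl _ hnoeth
  have hmap : Ideal.map (algebraMap B (Localization.AtPrime m)) m =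
      IsLocalRing.maximalIdeal (Localization.AtPrime m) :=
    Localization.AtPrime.map_eq_maximalIdeal
  have hspan : Ideal.span (Set.range fun i => algebraMap B (Localization.AtPrime m) (t i)) =
      Ideal.map (algebraMap B (Localization.AtPrime m)) (Ideal.span (Set.range t)) := by
    rw [Ideal.map_span, ← Set.range_comp]
    rfl
  apply le_antisymm
  · rw [hspan, ← hmap]
    apply Ideal.map_mono
    rw [Ideal.span_le]
    rintro _ ⟨i, rfl⟩
    exact ht i
  · refine Submodule.le_of_le_smul_of_le_jacobson_bot
      (I := IsLocalRing.maximalIdeal (Localization.AtPrime m))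
      (IsNoetherian.noetherian _) (IsLocalRing.maximalIdeal_le_jacobson _) ?_
    have h5 := Ideal.map_mono (f := algebraMap B (Localization.AtPrime m)) hle
    rw [Ideal.map_sup, Ideal.map_pow, hmap, ← hspan, sq] at h5
    exact h5

end Fermat.Agent.S26.Loc
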