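/-
S26 / block LOC, leaf L2 (architect helper86, proof helper14).  Mathlib + `Etc/Alg`.

A system of `g` generators of the maximal ideal of the local ring at a rational point of a smooth
algebra of relative dimension `g` defines etale coordinates.
-/
import Fermat.Agent.S26.Etc.Alg

set_option autoImplicit false

namespace Fermat.Agent.S26.Loc

open KaehlerDifferential

/-- The polynomial ring in `g` variables is standard smooth of relative dimension `g`. -/
theorem etale_isStandardSmooth_mvPolynomial (K : Type*) [CommRing K] [Nontrivial K] (g : ℕ) :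
    Algebra.IsStandardSmoothOfRelativeDimension g K (MvPolynomial (Fin g) K) := by
  have h1 : Algebra.IsStandardSmooth K (MvPolynomial (Fin g) K) := by
    refine Algebra.IsStandardSmooth.of_basis_kaehlerDifferential
      (KaehlerDifferential.mvPolynomialBasis K (Fin g)) ?_
    rintro _ ⟨i, rfl⟩
    exact ⟨MvPolynomial.X i, (KaehlerDifferential.mvPolynomialBasis_apply K (Fin g) i).symm⟩
  rw [Algebra.IsStandardSmoothOfRelativeDimension.iff_of_isStandardSmooth]
  rw [rank_eq_card_basis (KaehlerDifferential.mvPolynomialBasis K (Fin g)), Fintype.card_fin]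

/-- The residue field of the local ring at a rational maximal ideal consists of constants. -/
theorem etale_exists_const_sub_mem (K : Type*) [Field K] (B : Type*) [CommRing B] [Algebra K B]
    (m : Ideal B) [m.IsMaximal] (hres : Function.Surjective (algebraMap K (B ⧸ m)))
    (r : Localization.AtPrime m) :
    ∃ c : K, r - algebraMap K (Localization.AtPrime m) c ∈
      IsLocalRing.maximalIdeal (Localization.AtPrime m) := by
  have hunder : (IsLocalRing.maximalIdeal (Localization.AtPrime m)).under B = m :=
    IsLocalization.AtPrime.under_maximalIdeal (Localization.AtPrime m) m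
  have hsurj := IsLocalization.surjective_quotientMap_of_maximal_of_localization
    m.primeCompl (Localization.AtPrime m)
    (I := IsLocalRing.maximalIdeal (Localization.AtPrime m)) (J := m)
    (H := hunder.ge) (by rw [hunder]; infer_instance)
  obtain ⟨q, hq⟩ := hsurj (Ideal.Quotient.mk _ r)
  obtain ⟨c, rfl⟩ := hres q
  refine ⟨c, ?_⟩
  rw [← Ideal.Quotient.eq, ← hq, IsScalarTower.algebraMap_apply K B (Localization.AtPrime m)]
  rfl

/-- Unramifiedness, by Nakayama's lemma for the module of differentials. -/
theorem etale_isUnramifiedAt (K : Type*) [Field K] (g : ℕ) (B : Type*) [CommRing B] [Algebra K B]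
    [Algebra.FiniteType K B] (m : Ideal B) [m.IsMaximal]
    (hres : Function.Surjective (algebraMap K (B ⧸ m))) (t : Fin g → B)
    (hspan : Ideal.span (Set.range fun i => algebraMap B (Localization.AtPrime m) (t i)) =
        IsLocalRing.maximalIdeal (Localization.AtPrime m))
    [Algebra (MvPolynomial (Fin g) K) B] [IsScalarTower K (MvPolynomial (Fin g) K) B]
    (hX : ∀ i, algebraMap (MvPolynomial (Fin g) K) B (MvPolynomial.X i) = t i) :
    Algebra.IsUnramifiedAt (MvPolynomial (Fin g) K) m := by
  have hft : Algebra.FiniteType (MvPolynomial (Fin g) K) B :=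
    Algebra.FiniteType.of_restrictScalars_finiteType K (MvPolynomial (Fin g) K) B
  have hX' : ∀ i, algebraMap (MvPolynomial (Fin g) K) (Localization.AtPrime m)
      (MvPolynomial.X i) = algebraMap B (Localization.AtPrime m) (t i) := by
    intro i
    rw [IsScalarTower.algebraMap_apply (MvPolynomial (Fin g) K) B (Localization.AtPrime m), hX]
  have hC' : ∀ c : K, algebraMap (MvPolynomial (Fin g) K) (Localization.AtPrime m)
      (algebraMap K (MvPolynomial (Fin g) K) c) = algebraMap K (Localization.AtPrime m) c := by
    intro c
    rw [IsScalarTower.algebraMap_apply (MvPolynomial (Fin g) K) B (Localization.AtPrime m),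
      ← IsScalarTower.algebraMap_apply K (MvPolynomial (Fin g) K) B,
      ← IsScalarTower.algebraMap_apply K B (Localization.AtPrime m)]
  have hmem : ∀ i, algebraMap B (Localization.AtPrime m) (t i) ∈
      IsLocalRing.maximalIdeal (Localization.AtPrime m) := by
    intro i
    rw [← hspan]
    exact Ideal.subset_span ⟨i, rfl⟩
  have key : ∀ r : Localization.AtPrime m,
      D (MvPolynomial (Fin g) K) (Localization.AtPrime m) r ∈
        IsLocalRing.maximalIdeal (Localization.AtPrime m) •
          (⊤ : Submodule (Localization.AtPrime m)
            Ω[Localization.AtPrime m⁄MvPolynomial (Fin g) K]) := by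
    intro r
    obtain ⟨c, hc⟩ := etale_exists_const_sub_mem K B m hres r
    rw [← hspan] at hc
    obtain ⟨a, ha⟩ := Ideal.mem_span_range_iff_exists_fun.mp hc
    have hr : r = algebraMap (MvPolynomial (Fin g) K) (Localization.AtPrime m)
        (algebraMap K (MvPolynomial (Fin g) K) c) +
        ∑ i, a i * algebraMap (MvPolynomial (Fin g) K) (Localization.AtPrime m)
          (MvPolynomial.X i) := by
      simp only [hX', hC']
      rw [ha]
      ring
    rw [hr, map_add, Derivation.map_algebraMap, zero_add, map_sum]
    refine Submodule.sum_mem _ fun i _ => ?_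
    rw [Derivation.leibniz, Derivation.map_algebraMap, smul_zero, zero_add, hX']
    exact Submodule.smul_mem_smul (hmem i) Submodule.mem_top
  have htop : (⊤ : Submodule (Localization.AtPrime m)
      Ω[Localization.AtPrime m⁄MvPolynomial (Fin g) K]) = ⊥ := by
    refine Submodule.eq_bot_of_le_smul_of_le_jacobson_bot
      (IsLocalRing.maximalIdeal (Localization.AtPrime m)) ⊤ Module.Finite.fg_top ?_
      (IsLocalRing.maximalIdeal_le_jacobson _)
    calc (⊤ : Submodule (Localization.AtPrime m)
          Ω[Localization.AtPrime m⁄MvPolynomial (Fin g) K])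
        = Submodule.span (Localization.AtPrime m)
          (Set.range (D (MvPolynomial (Fin g) K) (Localization.AtPrime m))) :=
          (KaehlerDifferential.span_range_derivation _ _).symm
      _ ≤ _ := Submodule.span_le.mpr (by rintro _ ⟨r, rfl⟩; exact key r)
  have hsub : Subsingleton (Submodule (Localization.AtPrime m)
      Ω[Localization.AtPrime m⁄MvPolynomial (Fin g) K]) := subsingleton_of_bot_eq_top htop.symm
  exact ⟨(Submodule.subsingleton_iff (Localization.AtPrime m)).mp hsub⟩

/-- L2: such a system of generators defines etale coordinates. -/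
theorem isEtaleAt_aeval (K : Type*) [Field K] (g : ℕ) (B : Type*) [CommRing B] [Algebra K B]
    [Algebra.IsStandardSmoothOfRelativeDimension g K B] (m : Ideal B) [m.IsMaximal]
    (hres : Function.Surjective (algebraMap K (B ⧸ m))) (t : Fin g → B) (ht : ∀ i, t i ∈ m)
    (hspan : Ideal.span (Set.range fun i => algebraMap B (Localization.AtPrime m) (t i)) =
        IsLocalRing.maximalIdeal (Localization.AtPrime m)) :
    letI : Algebra (MvPolynomial (Fin g) K) B := (MvPolynomial.aeval t).toAlgebra
    Algebra.IsEtaleAt (MvPolynomial (Fin g) K) m := by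
  let _ : Algebra (MvPolynomial (Fin g) K) B := (MvPolynomial.aeval t).toAlgebra
  have htower : IsScalarTower K (MvPolynomial (Fin g) K) B :=
    IsScalarTower.of_algebraMap_eq' (MvPolynomial.aeval t).comp_algebraMap.symm
  have hsm : Algebra.IsStandardSmooth K B :=
    Algebra.IsStandardSmoothOfRelativeDimension.isStandardSmooth g
  have hP := etale_isStandardSmooth_mvPolynomial K g
  have hunr : Algebra.IsUnramifiedAt (MvPolynomial (Fin g) K) m :=
    etale_isUnramifiedAt K g B m hres t hspan fun i => MvPolynomial.aeval_X t i
  exact Etc.isEtaleAt_of_isUnramifiedAt K (MvPolynomial (Fin g) K) B g m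

end Fermat.Agent.S26.Loc
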