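/-
S26 / block LOC, leaf L3 (core, Mathlib only).  `B` of finite presentation over an algebraically
closed field `K`, `m` a maximal ideal, `P = K[T_1..T_g] → B` etale at `m`, the images of the `T_i`
generate the maximal ideal of `B_m`.  Then `B_m` is flat over `P`, `idealOfVars` generates its maximal
ideal and `P → κ(m)` is onto.
-/
import Mathlib

set_option autoImplicit false

namespace Fermat.Agent.S26.Loc

open IsLocalRing

/-- Nullstellensatz: the residue fields at the maximal ideals are `K`. -/
theorem ufdCore_residue_surjective (K : Type*) [Field K] [IsAlgClosed K] (B : Type*) [CommRing B]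
    [Algebra K B] [Algebra.FiniteType K B] (m : Ideal B) [m.IsMaximal] :
    Function.Surjective (algebraMap K (B ⧸ m)) := by
  letI : Field (B ⧸ m) := Ideal.Quotient.field m
  haveI : Module.Finite K (B ⧸ m) := finite_of_finite_type_of_isJacobsonRing K (B ⧸ m)
  exact IsAlgClosed.algebraMap_bijective_of_isIntegral.2

/-- flatness of the local ring at a point where the algebra is etale. -/
theorem ufdCore_flat (P B : Type*) [CommRing P] [CommRing B] [Algebra P B]
    [Algebra.FinitePresentation P B] (m : Ideal B) [m.IsPrime] [Algebra.IsEtaleAt P m] :
    Module.Flat P (Localization.AtPrime m) := by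
  obtain ⟨f, hf, het⟩ := Algebra.exists_etale_of_isEtaleAt (R := P) m
  have hle : Submonoid.powers f ≤ m.primeCompl := by
    rw [Submonoid.powers_le]
    exact hf
  letI : Algebra (Localization.Away f) (Localization.AtPrime m) :=
    IsLocalization.localizationAlgebraOfSubmonoidLe _ _ (.powers f) m.primeCompl hle
  haveI : IsScalarTower B (Localization.Away f) (Localization.AtPrime m) :=
    IsLocalization.localization_isScalarTower_of_submonoid_le ..
  haveI : IsLocalization (m.primeCompl.map (algebraMap B (Localization.Away f)))
      (Localization.AtPrime m) :=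
    IsLocalization.isLocalization_of_submonoid_le (Localization.Away f) (Localization.AtPrime m)
      _ _ hle
  haveI : Module.Flat (Localization.Away f) (Localization.AtPrime m) :=
    IsLocalization.flat _ (m.primeCompl.map (algebraMap B (Localization.Away f)))
  haveI : IsScalarTower P (Localization.Away f) (Localization.AtPrime m) := by
    refine IsScalarTower.of_algebraMap_eq fun x => ?_
    rw [IsScalarTower.algebraMap_apply P B (Localization.AtPrime m),
      IsScalarTower.algebraMap_apply P B (Localization.Away f),
      ← IsScalarTower.algebraMap_apply B (Localization.Away f) (Localization.AtPrime m)]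
  haveI : Module.Flat P (Localization.Away f) := inferInstance
  exact Module.Flat.trans P (Localization.Away f) (Localization.AtPrime m)

/-- the residue field of `B_m` is `K`. -/
theorem ufdCore_residue_comp_surjective (K : Type*) [Field K] (P B : Type*) [CommRing P]
    [CommRing B] [Algebra K P] [Algebra K B] [Algebra P B] [IsScalarTower K P B]
    (m : Ideal B) [m.IsMaximal] (hres : Function.Surjective (algebraMap K (B ⧸ m))) :
    Function.Surjective
      ((residue (Localization.AtPrime m)).comp (algebraMap P (Localization.AtPrime m))) := by
  intro x
  obtain ⟨y, rfl⟩ := (IsLocalization.AtPrime.equivQuotMaximalIdeal m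
    (Localization.AtPrime m)).surjective x
  obtain ⟨c, rfl⟩ := hres y
  refine ⟨algebraMap K P c, ?_⟩
  rw [RingHom.comp_apply, IsScalarTower.algebraMap_apply P B (Localization.AtPrime m),
    ← IsScalarTower.algebraMap_apply K P B, IsScalarTower.algebraMap_apply K B (B ⧸ m),
    Ideal.Quotient.algebraMap_eq, IsLocalization.AtPrime.equivQuotMaximalIdeal_apply_mk]
  rfl

/-- `idealOfVars` generates the maximal ideal. -/
theorem ufdCore_map_idealOfVars (K : Type*) [Field K] (g : ℕ) (B : Type*) [CommRing B]
    [Algebra (MvPolynomial (Fin g) K) B] (m : Ideal B) [m.IsPrime] (t : Fin g → B)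
    (ht : ∀ i, algebraMap (MvPolynomial (Fin g) K) B (MvPolynomial.X i) = t i)
    (hspan : Ideal.span (Set.range fun i => algebraMap B (Localization.AtPrime m) (t i)) =
        maximalIdeal (Localization.AtPrime m)) :
    (MvPolynomial.idealOfVars (Fin g) K).map
      (algebraMap (MvPolynomial (Fin g) K) (Localization.AtPrime m)) =
        maximalIdeal (Localization.AtPrime m) := by
  rw [← hspan, MvPolynomial.idealOfVars, Ideal.map_span, ← Set.range_comp]
  congr 2
  funext i
  rw [Function.comp_apply,
    IsScalarTower.algebraMap_apply (MvPolynomial (Fin g) K) B (Localization.AtPrime m), ht]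

end Fermat.Agent.S26.Loc
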