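/-
S26 / block LOC, leaf L3: the local rings of a standard smooth algebra over an algebraically closed
field at its maximal ideals are factorial.  FINAL version (L1, L2, U7 landed).
-/
import Fermat.Agent.S26.Loc.UfdCore
import Fermat.Agent.S26.Loc.Coord
import Fermat.Agent.S26.Loc.Etale
import Fermat.Agent.S26.UFD.Local

set_option autoImplicit false

namespace Fermat.Agent.S26.Loc

/-- L3 `Loc/Ufd.lean` : the local rings at the maximal ideals are factorial. -/
theorem ufd_localization_of_smooth (K : Type*) [Field K] [IsAlgClosed K] (g : ℕ) (B : Type*)
    [CommRing B] [Algebra K B] [Algebra.IsStandardSmoothOfRelativeDimension g K B]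
    (m : Ideal B) [m.IsMaximal] :
    ∃ _ : IsDomain (Localization.AtPrime m),
      UniqueFactorizationMonoid (Localization.AtPrime m) := by
  haveI : Algebra.IsStandardSmooth K B :=
    Algebra.IsStandardSmoothOfRelativeDimension.isStandardSmooth g
  haveI : Algebra.FinitePresentation K B := inferInstance
  have hres := ufdCore_residue_surjective K B m
  obtain ⟨t, ht, hspan⟩ := exists_generators K g B m hres
  have het := isEtaleAt_aeval K g B m hres t ht hspan
  letI : Algebra (MvPolynomial (Fin g) K) B := (MvPolynomial.aeval t).toAlgebra
  haveI : IsScalarTower K (MvPolynomial (Fin g) K) B :=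
    IsScalarTower.of_algebraMap_eq fun c => ((MvPolynomial.aeval t).commutes c).symm
  haveI : Algebra.IsEtaleAt (MvPolynomial (Fin g) K) m := het
  haveI : Algebra.FinitePresentation (MvPolynomial (Fin g) K) B :=
    Algebra.FinitePresentation.of_restrict_scalars_finitePresentation K _ B
  haveI : Module.Flat (MvPolynomial (Fin g) K) (Localization.AtPrime m) :=
    ufdCore_flat (MvPolynomial (Fin g) K) B m
  haveI : IsNoetherianRing B := Algebra.FiniteType.isNoetherianRing K B
  haveI : IsNoetherianRing (Localization.AtPrime m) :=
    IsLocalization.isNoetherianRing m.primeCompl _ inferInstance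
  exact UFD.ufd_of_flat_of_map_idealOfVars K g (Localization.AtPrime m)
    (ufdCore_map_idealOfVars K g B m t (fun i => MvPolynomial.aeval_X t i) hspan)
    (ufdCore_residue_comp_surjective K (MvPolynomial (Fin g) K) B m hres)

end Fermat.Agent.S26.Loc
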