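/-
S26 / block LOC, leaf L5 (helper211): a connected smooth scheme over an algebraically closed field is
integral; node INT.  FINAL version: the whole proof is in `Loc/IntegralCore.lean`, this file plugs L3 in.
-/
import Fermat.Agent.S26.Loc.IntegralCore
import Fermat.Agent.S26.Loc.Ufd

set_option autoImplicit false

universe u

open CategoryTheory CategoryTheory.Limits AlgebraicGeometry

namespace Fermat.Agent.S26.Loc

theorem Integral.domainAtMax (K : Type u) [Field K] [IsAlgClosed K] : DomainAtMax K := by
  intro g B _ _ _ m _
  obtain ⟨h, _⟩ := ufd_localization_of_smooth K g B m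
  exact h

/-- L5 `Loc/Integral.lean` : a connected smooth scheme over an algebraically closed field is
integral. -/
theorem isIntegral_of_smooth_of_connected {K : Type u} [Field K] [IsAlgClosed K] {X : Scheme.{u}}
    (x : X ⟶ SK K) [Smooth x] [QuasiCompact x] [ConnectedSpace X] : IsIntegral X :=
  Integral.isIntegral_of (Integral.domainAtMax K) x

theorem intNode (K : Type u) [Field K] [IsAlgClosed K] : Fermat.Agent.S26.IntNode K :=
  Integral.intNode_of (Integral.domainAtMax K)

end Fermat.Agent.S26.Loc
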