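/-
S26 / block LOC, leaf L4 (core): the stalks of a smooth `K`-scheme at the closed points are factorial,
GIVEN the ring statement L3 (as a hypothesis `H`).
-/
import Fermat.Agent.S26.Defs

set_option autoImplicit false

universe u

open CategoryTheory CategoryTheory.Limits AlgebraicGeometry

namespace Fermat.Agent.S26.Loc

/-- L4 with L3 as a hypothesis. -/
theorem ufd_stalk_core {K : Type u} [Field K] {X : Scheme.{u}} (x : X ⟶ SK K) (g : ℕ)
    [SmoothOfRelativeDimension g x] (z : X) (hz : IsClosed ({z} : Set X))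
    (H : ∀ (B : Type u) [CommRing B] [Algebra K B]
      [Algebra.IsStandardSmoothOfRelativeDimension g K B] (m : Ideal B) [m.IsMaximal],
      ∃ _ : IsDomain (Localization.AtPrime m),
        UniqueFactorizationMonoid (Localization.AtPrime m)) :
    ∃ _ : IsDomain (X.presheaf.stalk z), UniqueFactorizationMonoid (X.presheaf.stalk z) := by
  obtain ⟨U, hU, V, hV, hzV, e, hf⟩ :=
    SmoothOfRelativeDimension.exists_isStandardSmoothOfRelativeDimension (n := g) (f := x) z
  have hUtop : U = ⊤ := by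
    rw [eq_top_iff]
    intro y _
    have h1 : y = x z := Subsingleton.elim (α := PrimeSpectrum K) _ _
    rw [h1]
    exact e hzV
  subst hUtop
  let ε : K ≃+* Γ(SK K, ⊤) := (Scheme.ΓSpecIso (CommRingCat.of K)).symm.commRingCatIsoToRingEquiv
  have hf' : RingHom.IsStandardSmoothOfRelativeDimension g
      ((x.appLE ⊤ V e).hom.comp ε.toRingHom) :=
    RingHom.isStandardSmoothOfRelativeDimension_respectsIso.2 _ ε hf
  letI : Algebra K Γ(X, V) := ((x.appLE ⊤ V e).hom.comp ε.toRingHom).toAlgebra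
  haveI : Algebra.IsStandardSmoothOfRelativeDimension g K Γ(X, V) := hf'
  haveI := hV.primeIdealOf_isMaximal_of_isClosed ⟨z, hzV⟩ hz
  obtain ⟨hdom, hufd⟩ := H Γ(X, V) (hV.primeIdealOf ⟨z, hzV⟩).asIdeal
  letI : Algebra Γ(X, V) (X.presheaf.stalk z) :=
    TopCat.Presheaf.algebra_section_stalk X.presheaf (⟨z, hzV⟩ : V)
  haveI : IsLocalization.AtPrime (X.presheaf.stalk z) (hV.primeIdealOf ⟨z, hzV⟩).asIdeal :=
    hV.isLocalization_stalk ⟨z, hzV⟩
  let E := IsLocalization.algEquiv (hV.primeIdealOf ⟨z, hzV⟩).asIdeal.primeCompl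
    (Localization.AtPrime (hV.primeIdealOf ⟨z, hzV⟩).asIdeal) (X.presheaf.stalk z)
  exact ⟨E.symm.toMulEquiv.isDomain _, E.toMulEquiv.uniqueFactorizationMonoid hufd⟩

end Fermat.Agent.S26.Loc
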