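/-
S26 / block LOC, leaf L4: `ufd_stalk` from the core (`Loc/StalkCore.lean`) and L3 (`Loc/Ufd.lean`).  FINAL version.
-/
import Fermat.Agent.S26.Loc.StalkCore
import Fermat.Agent.S26.Loc.Ufd

set_option autoImplicit false

universe u

open CategoryTheory CategoryTheory.Limits AlgebraicGeometry

namespace Fermat.Agent.S26.Loc

/-- L4 `Loc/Stalk.lean` : the scheme version. -/
theorem ufd_stalk {K : Type u} [Field K] [IsAlgClosed K] {X : Scheme.{u}} (x : X ⟶ SK K) (g : ℕ)
    [SmoothOfRelativeDimension g x] (z : X) (hz : IsClosed ({z} : Set X)) :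
    ∃ _ : IsDomain (X.presheaf.stalk z), UniqueFactorizationMonoid (X.presheaf.stalk z) :=
  ufd_stalk_core x g z hz fun B _ _ _ m _ => ufd_localization_of_smooth K g B m

end Fermat.Agent.S26.Loc
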